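/-
S42 / Program A, leaf (RIG), helper71: the SPECIALISATION lemma (Mathlib only).

`E ⊆ Ω` algebraically closed fields, `t` a finite transcendence basis of `Ω` over `E`, `k ⊆ E`
algebraically closed.  Finitely many elements `Y` of `Ω` that are algebraic over `k[t]` and
finitely many arbitrary elements `Z` of `Ω` can be specialised simultaneously by an `E`-point `π`
of a subring of `Ω` containing `E`, `Y`, `Z`, such that `π` maps `Y` into `k` and does not kill
the nonzero elements of `Z`.

Proof: everything is integral over `A' = E[t][1/L]` for a suitable nonzero `L`; choose a `k`-point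
`c` off the zero set of `L`, and use lying-over for the integral closure of `A'` in `Ω` at the
maximal ideal `ker (ev_c)`.
-/
import Mathlib

set_option autoImplicit false

open Polynomial

namespace Fermat.Agent.S42.H71

universe u

/-- A relation of algebraic dependence over `R[x]`, `x` algebraically independent, pulled back to
the polynomial ring. -/
theorem exists_poly_of_isAlgebraic_adjoin {ι R A : Type*} [CommRing R] [CommRing A] [Algebra R A]
    {x : ι → A} (hx : AlgebraicIndependent R x) {a : A}
    (h : IsAlgebraic (Algebra.adjoin R (Set.range x)) a) :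
    ∃ P : Polynomial (MvPolynomial ι R), P ≠ 0 ∧
      Polynomial.eval₂ ((MvPolynomial.aeval x : MvPolynomial ι R →ₐ[R] A) :
        MvPolynomial ι R →+* A) a P = 0 := by
  obtain ⟨Q, hQ0, hQ⟩ := h
  refine ⟨Q.map (hx.aevalEquiv.symm : Algebra.adjoin R (Set.range x) →+* MvPolynomial ι R),
    fun h0 => hQ0 ?_, ?_⟩
  · refine Polynomial.map_injective _ ?_ (h0.trans (Polynomial.map_zero _).symm)
    exact hx.aevalEquiv.symm.injective
  · rw [Polynomial.eval₂_map]
    rw [Polynomial.aeval_def] at hQ
    have e : ((MvPolynomial.aeval x : MvPolynomial ι R →ₐ[R] A) : MvPolynomial ι R →+* A).comp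
        (hx.aevalEquiv.symm : Algebra.adjoin R (Set.range x) →+* MvPolynomial ι R)
        = algebraMap (Algebra.adjoin R (Set.range x)) A := by
      refine RingHom.ext fun b => ?_
      have := hx.algebraMap_aevalEquiv (hx.aevalEquiv.symm b)
      rw [AlgEquiv.apply_symm_apply] at this
      exact this.symm
    rw [e]
    exact hQ

/-- An element of an extension of an algebraically closed field which is algebraic lies in the
base field. -/
theorem mem_range_of_isAlgebraic {k E : Type*} [Field k] [Field E] [Algebra k E] [IsAlgClosed k]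
    {x : E} (hx : IsAlgebraic k x) : x ∈ Set.range (algebraMap k E) := by
  have hint := hx.isIntegral
  have h : (minpoly k x).degree = 1 :=
    IsAlgClosed.degree_eq_one_of_irreducible k (minpoly.irreducible hint)
  exact minpoly.mem_range_of_degree_eq_one k x h

theorem exists_specialization
    {k E : Type*} {Ω : Type u} [Field k] [Field E] [Field Ω] [Algebra k E] [Algebra E Ω]
    [Algebra k Ω] [IsScalarTower k E Ω] [IsAlgClosed k] [IsAlgClosed E]
    {d : ℕ} (t : Fin d → Ω) (ht : IsTranscendenceBasis E t)
    (Y : Finset Ω)
    (hY : ∀ y ∈ Y, ∃ P : Polynomial (MvPolynomial (Fin d) k), P ≠ 0 ∧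
      Polynomial.eval₂ ((MvPolynomial.aeval t : MvPolynomial (Fin d) k →ₐ[k] Ω) :
        MvPolynomial (Fin d) k →+* Ω) y P = 0)
    (Z : Finset Ω) :
    ∃ (C : Type u) (_ : CommRing C) (incl : C →+* Ω) (π : C →+* E),
      Function.Injective incl ∧
      (∃ s : E →+* C, (∀ e : E, incl (s e) = algebraMap E Ω e) ∧ ∀ e : E, π (s e) = e) ∧
      (∀ z ∈ Z, ∃ x : C, incl x = z ∧ (z ≠ 0 → π x ≠ 0)) ∧
      (∀ y ∈ Y, ∃ x : C, incl x = y ∧ π x ∈ Set.range (algebraMap k E)) := by
  classical
  have hφinj : Function.Injective (MvPolynomial.aeval t : MvPolynomial (Fin d) E →ₐ[E] Ω) := ht.1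
  -- generators
  set G : Finset Ω := Y ∪ Z ∪ Z.image (fun z => z⁻¹) with hGdef
  have hG : ∀ g ∈ G, ∃ P : Polynomial (MvPolynomial (Fin d) E), P ≠ 0 ∧
      Polynomial.eval₂ ((MvPolynomial.aeval t : MvPolynomial (Fin d) E →ₐ[E] Ω) :
        MvPolynomial (Fin d) E →+* Ω) g P = 0 := by
    intro g _
    have := ht.isAlgebraic
    exact exists_poly_of_isAlgebraic_adjoin ht.1 (this.isAlgebraic g)
  choose! PG hPG0 hPG using hG
  choose! PY hPY0 hPY using hY
  have hmkinj : Function.Injective
      (MvPolynomial.map (algebraMap k E) : MvPolynomial (Fin d) k →+* MvPolynomial (Fin d) E) :=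
    MvPolynomial.map_injective _ (algebraMap k E).injective
  -- the product of the leading coefficients
  set L : MvPolynomial (Fin d) E := (∏ g ∈ G, (PG g).leadingCoeff) *
    ∏ y ∈ Y, MvPolynomial.map (algebraMap k E) (PY y).leadingCoeff with hLdef
  have hL0 : L ≠ 0 := by
    refine mul_ne_zero (Finset.prod_ne_zero_iff.mpr fun g hg => ?_)
      (Finset.prod_ne_zero_iff.mpr fun y hy => ?_)
    · exact Polynomial.leadingCoeff_ne_zero.mpr (hPG0 g hg)
    · exact (map_ne_zero_iff _ hmkinj).mpr (Polynomial.leadingCoeff_ne_zero.mpr (hPY0 y hy))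
  -- a `k`-point off the zero set of `L`
  obtain ⟨c, hc⟩ : ∃ c : Fin d → k,
      MvPolynomial.eval (fun i => algebraMap k E (c i)) L ≠ 0 := by
    by_contra hcon
    have hcon : ∀ c : Fin d → k,
        MvPolynomial.eval (fun i => algebraMap k E (c i)) L = 0 := fun c =>
      not_not.mp fun h => hcon ⟨c, h⟩
    apply hL0
    refine MvPolynomial.funext_set (fun _ => Set.range (algebraMap k E))
      (fun _ => Set.infinite_range_of_injective (algebraMap k E).injective) ?_
    intro x hx
    choose c hc using fun i => hx i (Set.mem_univ i)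
    have h1 := hcon c
    have h2 : (fun i => algebraMap k E (c i)) = x := funext hc
    rw [h2] at h1
    rw [h1, map_zero]
  -- the localisation `A' = E[t][1/L]` and its map to `Ω`
  have hLunit : IsUnit (((MvPolynomial.aeval t : MvPolynomial (Fin d) E →ₐ[E] Ω) :
      MvPolynomial (Fin d) E →+* Ω) L) :=
    IsUnit.mk0 _ ((map_ne_zero_iff _ hφinj).mpr hL0)
  let ψ : Localization.Away L →+* Ω := IsLocalization.Away.lift L hLunit
  have hψ : ∀ m : MvPolynomial (Fin d) E,
      ψ (algebraMap (MvPolynomial (Fin d) E) (Localization.Away L) m) = MvPolynomial.aeval t m :=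
    fun m => IsLocalization.Away.lift_eq L hLunit m
  have hloc_inj : Function.Injective
      (algebraMap (MvPolynomial (Fin d) E) (Localization.Away L)) :=
    IsLocalization.injective (Localization.Away L)
      (powers_le_nonZeroDivisors_of_noZeroDivisors hL0)
  have hψinj : Function.Injective ψ := by
    rw [injective_iff_map_eq_zero]
    intro a ha
    obtain ⟨⟨m, s⟩, hms⟩ := IsLocalization.surj (Submonoid.powers L) a
    have h3 : ψ (a * algebraMap _ _ (s : MvPolynomial (Fin d) E)) = ψ (algebraMap _ _ m) :=
      congrArg ψ hms
    rw [map_mul, ha, zero_mul, hψ] at h3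
    have hm : m = 0 := hφinj (h3.symm.trans (map_zero _).symm)
    rw [hm, map_zero] at hms
    have hsunit : IsUnit (algebraMap (MvPolynomial (Fin d) E) (Localization.Away L)
        (s : MvPolynomial (Fin d) E)) := IsLocalization.map_units _ s
    exact (hsunit.mul_left_eq_zero).mp hms
  let _ : Algebra (Localization.Away L) Ω := ψ.toAlgebra
  have halg : ∀ a : Localization.Away L, algebraMap (Localization.Away L) Ω a = ψ a := fun _ => rfl
  -- evaluation at `c`
  have hcunit : IsUnit ((MvPolynomial.eval (fun i => algebraMap k E (c i)) :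
      MvPolynomial (Fin d) E →+* E) L) := IsUnit.mk0 _ hc
  let ev : Localization.Away L →+* E := IsLocalization.Away.lift L hcunit
  have hev : ∀ m : MvPolynomial (Fin d) E,
      ev (algebraMap (MvPolynomial (Fin d) E) (Localization.Away L) m)
        = MvPolynomial.eval (fun i => algebraMap k E (c i)) m :=
    fun m => IsLocalization.Away.lift_eq L hcunit m
  have hevsurj : Function.Surjective ev := fun e =>
    ⟨algebraMap _ _ (MvPolynomial.C e), by rw [hev, MvPolynomial.eval_C]⟩
  have hPmax : (RingHom.ker ev).IsMaximal := RingHom.ker_isMaximal_of_surjective ev hevsurj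
  -- the integral closure and lying over
  have hker : RingHom.ker (algebraMap (Localization.Away L)
      (integralClosure (Localization.Away L) Ω)) ≤ RingHom.ker ev := by
    intro a ha
    have h4 : ψ a = 0 := by
      have := congrArg (Subtype.val) (RingHom.mem_ker.mp ha)
      exact this
    rw [hψinj (h4.trans (map_zero ψ).symm)]
    exact Ideal.zero_mem _
  obtain ⟨Q, hQmax, hQ⟩ := Ideal.exists_ideal_over_maximal_of_isIntegral
    (S := integralClosure (Localization.Away L) Ω) (RingHom.ker ev) hker
  let _ := Ideal.Quotient.field Q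
  let θ : MvPolynomial (Fin d) E →+* integralClosure (Localization.Away L) Ω :=
    (algebraMap (Localization.Away L) (integralClosure (Localization.Away L) Ω)).comp
      (algebraMap (MvPolynomial (Fin d) E) (Localization.Away L))
  have hθval : ∀ m : MvPolynomial (Fin d) E, ((θ m : integralClosure (Localization.Away L) Ω) : Ω)
      = MvPolynomial.aeval t m := fun m => hψ m
  let j : E →+* (integralClosure (Localization.Away L) Ω ⧸ Q) :=
    (Ideal.Quotient.mk Q).comp (θ.comp MvPolynomial.C)
  have hfac : (Ideal.Quotient.mk Q).comp
      (algebraMap (Localization.Away L) (integralClosure (Localization.Away L) Ω)) = j.comp ev := by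
    apply IsLocalization.ringHom_ext (Submonoid.powers L)
    apply MvPolynomial.ringHom_ext
    · intro e
      simp only [RingHom.comp_apply, hev, MvPolynomial.eval_C, j, θ]
    · intro i
      simp only [RingHom.comp_apply, hev, MvPolynomial.eval_X, j, θ]
      rw [← sub_eq_zero, ← map_sub, ← map_sub, ← map_sub, Ideal.Quotient.eq_zero_iff_mem]
      have h5 : algebraMap (MvPolynomial (Fin d) E) (Localization.Away L)
          (MvPolynomial.X i - MvPolynomial.C (algebraMap k E (c i))) ∈ RingHom.ker ev := by
        rw [RingHom.mem_ker, hev, map_sub, MvPolynomial.eval_X, MvPolynomial.eval_C, sub_self]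
      rw [← hQ] at h5
      exact h5
  have hjint : j.IsIntegral := by
    intro x
    obtain ⟨x, rfl⟩ := Ideal.Quotient.mk_surjective x
    obtain ⟨p, hpmonic, hp⟩ :
        IsIntegral (Localization.Away L) x := Algebra.IsIntegral.isIntegral x
    refine ⟨p.map ev, hpmonic.map ev, ?_⟩
    rw [Polynomial.eval₂_map, ← hfac, ← Polynomial.hom_eval₂, hp, map_zero]
  have hjbij := IsAlgClosed.ringHom_bijective_of_isIntegral j hjint
  let jE : E ≃+* (integralClosure (Localization.Away L) Ω ⧸ Q) := RingEquiv.ofBijective j hjbij
  let π : integralClosure (Localization.Away L) Ω →+* E :=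
    (jE.symm : (integralClosure (Localization.Away L) Ω ⧸ Q) →+* E).comp (Ideal.Quotient.mk Q)
  have hπalg : ∀ a : Localization.Away L,
      π (algebraMap (Localization.Away L) (integralClosure (Localization.Away L) Ω) a) = ev a := by
    intro a
    have h6 : Ideal.Quotient.mk Q (algebraMap (Localization.Away L)
        (integralClosure (Localization.Away L) Ω) a) = jE (ev a) := by
      have := congrArg (fun f => f a) hfac
      exact this
    show jE.symm (Ideal.Quotient.mk Q _) = ev a
    rw [h6, RingEquiv.symm_apply_apply]
  have hπθ : ∀ m : MvPolynomial (Fin d) E,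
      π (θ m) = MvPolynomial.eval (fun i => algebraMap k E (c i)) m := by
    intro m
    show π (algebraMap (Localization.Away L) (integralClosure (Localization.Away L) Ω) _) = _
    rw [hπalg, hev]
  -- the generators are integral over `A'`
  have hGC : ∀ g ∈ G, IsIntegral (Localization.Away L) g := by
    intro g hg
    have h1 : Polynomial.aeval g ((PG g).map
        (algebraMap (MvPolynomial (Fin d) E) (Localization.Away L))) = 0 := by
      rw [Polynomial.aeval_def, Polynomial.eval₂_map]
      have e : (algebraMap (Localization.Away L) Ω).comp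
          (algebraMap (MvPolynomial (Fin d) E) (Localization.Away L))
          = ((MvPolynomial.aeval t : MvPolynomial (Fin d) E →ₐ[E] Ω) :
              MvPolynomial (Fin d) E →+* Ω) := RingHom.ext fun m => hψ m
      rw [e]
      exact hPG g hg
    have h2 := isIntegral_leadingCoeff_smul _ g h1
    rw [Polynomial.leadingCoeff_map_of_injective hloc_inj] at h2
    have hu : IsUnit (algebraMap (MvPolynomial (Fin d) E) (Localization.Away L)
        (PG g).leadingCoeff) := by
      refine isUnit_of_dvd_unit ?_ (IsLocalization.Away.algebraMap_isUnit L)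
      exact map_dvd _ ((Finset.dvd_prod_of_mem _ hg).mul_right _)
    obtain ⟨u, hu⟩ := hu
    have h3 : g = (↑u⁻¹ : Localization.Away L) •
        (algebraMap (MvPolynomial (Fin d) E) (Localization.Away L) (PG g).leadingCoeff • g) := by
      rw [← hu, smul_smul, Units.inv_mul, one_smul]
    rw [h3]
    exact h2.smul _
  refine ⟨integralClosure (Localization.Away L) Ω, inferInstance,
    (integralClosure (Localization.Away L) Ω).val.toRingHom, π, Subtype.val_injective, ?_, ?_, ?_⟩
  · refine ⟨θ.comp MvPolynomial.C, fun e => ?_, fun e => ?_⟩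
    · show ((θ (MvPolynomial.C e) : integralClosure (Localization.Away L) Ω) : Ω) = _
      rw [hθval, MvPolynomial.aeval_C]
    · show π (θ (MvPolynomial.C e)) = e
      rw [hπθ, MvPolynomial.eval_C]
  · intro z hz
    have hzG : z ∈ G := Finset.mem_union_left _ (Finset.mem_union_right _ hz)
    have hziG : z⁻¹ ∈ G := Finset.mem_union_right _ (Finset.mem_image_of_mem _ hz)
    refine ⟨⟨z, hGC z hzG⟩, rfl, fun hz0 h0 => ?_⟩
    have h7 : (⟨z, hGC z hzG⟩ : integralClosure (Localization.Away L) Ω)
        * ⟨z⁻¹, hGC _ hziG⟩ = 1 := Subtype.ext (mul_inv_cancel₀ hz0)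
    have h8 := congrArg π h7
    rw [map_mul, h0, zero_mul, map_one] at h8
    exact zero_ne_one h8
  · intro y hy
    have hyG : y ∈ G := Finset.mem_union_left _ (Finset.mem_union_left _ hy)
    refine ⟨⟨y, hGC y hyG⟩, rfl, ?_⟩
    apply mem_range_of_isAlgebraic
    -- the specialised polynomial
    have hlc : MvPolynomial.eval c (PY y).leadingCoeff ≠ 0 := by
      intro h0
      apply hc
      rw [hLdef, map_mul, map_prod, map_prod, Finset.prod_eq_zero hy, mul_zero]
      rw [MvPolynomial.eval_map]
      have h11 := MvPolynomial.eval₂_comp_left (algebraMap k E) (RingHom.id k) c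
        (PY y).leadingCoeff
      rw [RingHom.comp_id] at h11
      have h12 : MvPolynomial.eval₂ (RingHom.id k) c (PY y).leadingCoeff = 0 := h0
      rw [h12, map_zero] at h11
      exact h11.symm
    refine ⟨(PY y).map (MvPolynomial.eval c), fun h0 => hlc ?_, ?_⟩
    · have := congrArg (fun q => q.coeff (PY y).natDegree) h0
      simpa [Polynomial.coeff_map] using this
    · rw [Polynomial.aeval_def, Polynomial.eval₂_map]
      have e1 : (algebraMap k E).comp (MvPolynomial.eval c)
          = (π.comp θ).comp (MvPolynomial.map (algebraMap k E)) := by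
        apply MvPolynomial.ringHom_ext
        · intro a
          simp only [RingHom.comp_apply, MvPolynomial.eval_C, MvPolynomial.map_C, hπθ]
        · intro i
          simp only [RingHom.comp_apply, MvPolynomial.eval_X, MvPolynomial.map_X, hπθ]
      rw [e1, RingHom.comp_assoc, ← Polynomial.hom_eval₂]
      have h9 : Polynomial.eval₂ (θ.comp (MvPolynomial.map (algebraMap k E)))
          (⟨y, hGC y hyG⟩ : integralClosure (Localization.Away L) Ω) (PY y) = 0 := by
        apply Subtype.val_injective
        have h10 := Polynomial.hom_eval₂ (PY y) (θ.comp (MvPolynomial.map (algebraMap k E)))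
          (integralClosure (Localization.Away L) Ω).val.toRingHom ⟨y, hGC y hyG⟩
        have e2 : (integralClosure (Localization.Away L) Ω).val.toRingHom.comp
            (θ.comp (MvPolynomial.map (algebraMap k E)))
            = ((MvPolynomial.aeval t : MvPolynomial (Fin d) k →ₐ[k] Ω) :
                MvPolynomial (Fin d) k →+* Ω) := by
          refine RingHom.ext fun m => ?_
          show ((θ (MvPolynomial.map (algebraMap k E) m) :
            integralClosure (Localization.Away L) Ω) : Ω) = _
          rw [hθval, MvPolynomial.aeval_map_algebraMap]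
          rfl
        rw [e2] at h10
        exact h10.trans ((hPY y hy).trans rfl)
      rw [h9, map_zero]

end Fermat.Agent.S42.H71
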