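/-
Program A, leaf (RIG), part (R-a): automorphisms of an algebraically closed field of infinite
transcendence degree moving a finite set to "independent positions".

Mathlib only (plus `Spec.lean` of this directory).
-/
import Mathlib
import Fermat.Agent.S42.H71.Spec

set_option autoImplicit false

namespace Fermat.Agent.S42.H71

open Cardinal

section Perm

variable {k Ω : Type*} [Field k] [Field Ω] [Algebra k Ω] [IsAlgClosed Ω]

/-- A permutation of a transcendence basis of an algebraically closed field extends to an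
automorphism. -/
theorem exists_algEquiv_of_perm {ι : Type*} {v : ι → Ω} (hv : IsTranscendenceBasis k v)
    (e : ι ≃ ι) : ∃ σ : Ω ≃ₐ[k] Ω, ∀ i, σ (v i) = v (e i) := by
  have := IsAlgClosed.isAlgClosure_of_transcendence_basis v hv
  let eA : Algebra.adjoin k (Set.range v) ≃ₐ[k] Algebra.adjoin k (Set.range v) :=
    hv.1.aevalEquiv.symm.trans ((MvPolynomial.renameEquiv k e).trans hv.1.aevalEquiv)
  let σ₀ : Ω ≃+* Ω := IsAlgClosure.equivOfEquiv Ω Ω eA.toRingEquiv
  have hσ₀ : ∀ s : Algebra.adjoin k (Set.range v),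
      σ₀ (s : Ω) = ((eA s : Algebra.adjoin k (Set.range v)) : Ω) := fun s =>
    IsAlgClosure.equivOfEquiv_algebraMap Ω Ω eA.toRingEquiv s
  have hX : ∀ i, hv.1.aevalEquiv (MvPolynomial.X i) = ⟨v i, Algebra.subset_adjoin ⟨i, rfl⟩⟩ := by
    intro i
    apply Subtype.ext
    simp
  have hcomm : ∀ c : k, σ₀ (algebraMap k Ω c) = algebraMap k Ω c := by
    intro c
    have h := hσ₀ (algebraMap k _ c)
    rw [AlgEquiv.commutes] at h
    exact h
  refine ⟨AlgEquiv.ofRingEquiv (f := σ₀) hcomm, fun i => ?_⟩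
  have h := hσ₀ ⟨v i, Algebra.subset_adjoin ⟨i, rfl⟩⟩
  have h2 : eA ⟨v i, Algebra.subset_adjoin ⟨i, rfl⟩⟩ = ⟨v (e i), Algebra.subset_adjoin ⟨e i, rfl⟩⟩ := by
    show hv.1.aevalEquiv (MvPolynomial.renameEquiv k e (hv.1.aevalEquiv.symm _)) = _
    rw [← hX i, AlgEquiv.symm_apply_apply, MvPolynomial.renameEquiv_apply, MvPolynomial.rename_X, hX]
  rw [h2] at h
  exact h

end Perm

section Poly

variable {k Ω : Type*} [Field k] [Field Ω] [Algebra k Ω]

/-- A polynomial relation over `k[t]` with all `t l` in an intermediate field `K` shows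
algebraicity over `K`. -/
theorem isAlgebraic_of_poly {d : ℕ} (t : Fin d → Ω) (K : IntermediateField k Ω)
    (ht : ∀ l, t l ∈ K) (hind : AlgebraicIndependent k t) (y : Ω)
    (P : Polynomial (MvPolynomial (Fin d) k)) (hP : P ≠ 0)
    (h : Polynomial.eval₂ ((MvPolynomial.aeval t : MvPolynomial (Fin d) k →ₐ[k] Ω) :
      MvPolynomial (Fin d) k →+* Ω) y P = 0) : IsAlgebraic K y := by
  let φ : MvPolynomial (Fin d) k →ₐ[k] K := MvPolynomial.aeval (fun l => (⟨t l, ht l⟩ : K))
  have hφ : K.val.comp φ = MvPolynomial.aeval t := by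
    apply MvPolynomial.algHom_ext
    intro l
    simp [φ]
  have hφinj : Function.Injective φ := by
    have h1 : Function.Injective (K.val.comp φ) := by
      rw [hφ]
      exact hind
    exact Function.Injective.of_comp (f := K.val) (by simpa using h1)
  refine ⟨P.map (φ : MvPolynomial (Fin d) k →+* K), ?_, ?_⟩
  · exact (Polynomial.map_ne_zero_iff hφinj).mpr hP
  · rw [Polynomial.aeval_def, Polynomial.eval₂_map]
    have h2 : (algebraMap K Ω).comp (φ : MvPolynomial (Fin d) k →+* K)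
        = ((MvPolynomial.aeval t : MvPolynomial (Fin d) k →ₐ[k] Ω) :
          MvPolynomial (Fin d) k →+* Ω) := by
      rw [← hφ]
      rfl
    rw [h2]
    exact h

end Poly

section Autos

variable {k Ω : Type*} [Field k] [Field Ω] [Algebra k Ω]

/-- If there is an infinite algebraically independent sequence, every transcendence basis is
infinite. -/
theorem infinite_of_isTranscendenceBasis (hinf : ∃ s : ℕ → Ω, AlgebraicIndependent k s)
    {B : Set Ω} (hB : IsTranscendenceBasis k ((↑) : B → Ω)) : B.Infinite := by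
  obtain ⟨s, hs⟩ := hinf
  have h1 := hs.lift_cardinalMk_le_trdeg
  have h2 := hB.cardinalMk_eq_trdeg
  rw [← h2] at h1
  rw [← Set.infinite_coe_iff, Cardinal.infinite_iff]
  simpa using h1

variable [IsAlgClosed Ω]

/-- **Automorphisms in independent position.**  Over an algebraically closed field `Ω` of
infinite transcendence degree over `k`, for every finite set `S` and every `n` there are `n + 1`
automorphisms `σ i` of `Ω / k` such that for `i ≠ j` there is an algebraically closed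
intermediate field `E` and a finite transcendence basis `t` of `Ω / E` with `σ i S ⊆ E` and
every element of `σ j S` algebraic over `k[t]` (explicit polynomial relation). -/
theorem exists_autos (hinf : ∃ s : ℕ → Ω, AlgebraicIndependent k s) (S : Finset Ω) (n : ℕ) :
    ∃ (d : ℕ) (σ : Fin (n + 1) → Ω ≃ₐ[k] Ω), ∀ i j, i ≠ j →
      ∃ (E : IntermediateField k Ω) (t : Fin d → Ω), IsAlgClosed E ∧ IsTranscendenceBasis E t ∧
        (∀ a ∈ S, σ i a ∈ E) ∧
        ∀ a ∈ S, ∃ P : Polynomial (MvPolynomial (Fin d) k), P ≠ 0 ∧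
          Polynomial.eval₂ ((MvPolynomial.aeval t : MvPolynomial (Fin d) k →ₐ[k] Ω) :
            MvPolynomial (Fin d) k →+* Ω) (σ j a) P = 0 := by
  classical
  obtain ⟨s₀, hs₀⟩ := (AlgebraicIndependent.matroid k Ω).exists_isBasis (S : Set Ω)
  rw [AlgebraicIndependent.matroid_isBasis_iff] at hs₀
  obtain ⟨hind, hsub, halg⟩ := hs₀
  have hfin : s₀.Finite := S.finite_toSet.subset hsub
  have : Finite ↥s₀ := hfin.to_subtype
  set d := Nat.card ↥s₀ with hd
  let e₀ : ↥s₀ ≃ Fin d := Finite.equivFin ↥s₀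
  obtain ⟨B, hs₀B, hB⟩ := exists_isTranscendenceBasis_superset hind
  have hBinf : B.Infinite := infinite_of_isTranscendenceBasis hinf hB
  let emb : ℕ ↪ ↥(B \ s₀) := Set.Infinite.natEmbedding _ (hBinf.sdiff hfin)
  let G : Fin (n + 1) × Fin d → Ω := fun x => (emb (finProdFinEquiv x : ℕ) : Ω)
  have hG : Function.Injective G := by
    intro x y hxy
    have h1 : emb (finProdFinEquiv x : ℕ) = emb (finProdFinEquiv y : ℕ) := Subtype.ext hxy
    exact finProdFinEquiv.injective (Fin.ext (emb.injective h1))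
  have hGB : ∀ x, G x ∈ B := fun x => (emb _).2.1
  let x₀ : Fin d → Ω := fun l => (e₀.symm l : Ω)
  have hx₀B : ∀ l, x₀ l ∈ B := fun l => hs₀B (e₀.symm l).2
  have hx₀ : AlgebraicIndependent k x₀ := hind.comp e₀.symm e₀.symm.injective
  have hrange : Set.range x₀ = s₀ := by
    ext y
    constructor
    · rintro ⟨l, rfl⟩
      exact (e₀.symm l).2
    · intro hy
      exact ⟨e₀ ⟨y, hy⟩, by simp [x₀]⟩
  -- the automorphisms
  have hσ : ∀ i : Fin (n + 1), ∃ σ : Ω ≃ₐ[k] Ω, ∀ l, σ (x₀ l) = G (i, l) := by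
    intro i
    let s : Set ↥B := {b | (b : Ω) ∈ s₀}
    let f : ↥s ↪ ↥B := ⟨fun b => ⟨G (i, e₀ ⟨((b : ↥B) : Ω), b.2⟩), hGB _⟩, by
      intro b b' hbb'
      have h1 : G (i, e₀ ⟨((b : ↥B) : Ω), b.2⟩) = G (i, e₀ ⟨((b' : ↥B) : Ω), b'.2⟩) :=
        congrArg (fun c : ↥B => (c : Ω)) hbb'
      have h2 := hG h1
      simp only [Prod.mk.injEq, true_and, EmbeddingLike.apply_eq_iff_eq, Subtype.mk.injEq] at h2
      exact Subtype.ext (Subtype.ext h2)⟩
    have hs : #↥s < #↥B := by
      have : Infinite ↥B := hBinf.to_subtype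
      have : Finite ↥s :=
        Finite.of_injective (fun b : ↥s => (⟨((b : ↥B) : Ω), b.2⟩ : ↥s₀)) (by
          intro b b' h
          exact Subtype.ext (Subtype.ext (congrArg (fun c : ↥s₀ => (c : Ω)) h)))
      exact (Cardinal.lt_aleph0_of_finite _).trans_le (Cardinal.aleph0_le_mk _)
    obtain ⟨e, he⟩ := Cardinal.extend_function_of_lt f hs ⟨Equiv.refl _⟩
    obtain ⟨σ, hσ⟩ := exists_algEquiv_of_perm hB e
    refine ⟨σ, fun l => ?_⟩
    have h1 := hσ ⟨x₀ l, hx₀B l⟩
    have h2 := he ⟨⟨x₀ l, hx₀B l⟩, (e₀.symm l).2⟩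
    rw [h1, h2]
    show G (i, e₀ ⟨((e₀.symm l : ↥s₀) : Ω), (e₀.symm l).2⟩) = G (i, l)
    rw [Subtype.coe_eta, Equiv.apply_symm_apply]
  choose σ hσ using hσ
  -- polynomial relations
  have hpoly : ∀ a ∈ S, ∃ P : Polynomial (MvPolynomial (Fin d) k), P ≠ 0 ∧ ∀ i,
      Polynomial.eval₂ ((MvPolynomial.aeval (fun l => G (i, l)) :
        MvPolynomial (Fin d) k →ₐ[k] Ω) : MvPolynomial (Fin d) k →+* Ω) (σ i a) P = 0 := by
    intro a ha
    have h1 : IsAlgebraic (Algebra.adjoin k (Set.range x₀)) a := by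
      rw [hrange]
      exact halg a ha
    obtain ⟨P, hP, hPa⟩ := exists_poly_of_isAlgebraic_adjoin hx₀ h1
    refine ⟨P, hP, fun i => ?_⟩
    have h2 := congrArg (σ i : Ω →+* Ω) hPa
    rw [Polynomial.hom_eval₂, map_zero] at h2
    have h3 : ((σ i : Ω →+* Ω)).comp ((MvPolynomial.aeval x₀ : MvPolynomial (Fin d) k →ₐ[k] Ω) :
        MvPolynomial (Fin d) k →+* Ω) = ((MvPolynomial.aeval (fun l => G (i, l)) :
        MvPolynomial (Fin d) k →ₐ[k] Ω) : MvPolynomial (Fin d) k →+* Ω) := by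
      have h4 : ((σ i : Ω ≃ₐ[k] Ω) : Ω →ₐ[k] Ω).comp (MvPolynomial.aeval x₀)
          = MvPolynomial.aeval (fun l => G (i, l)) := by
        apply MvPolynomial.algHom_ext
        intro l
        simp [hσ]
      rw [← h4]
      rfl
    rw [h3] at h2
    exact h2
  refine ⟨d, σ, fun i j hij => ?_⟩
  let t : Fin d → Ω := fun l => G (j, l)
  let s : Set ↥B := {b | (b : Ω) ∉ Set.range t}
  let K₁ : IntermediateField k Ω := IntermediateField.adjoin k (((↑) : ↥B → Ω) '' s)
  let E' : IntermediateField K₁ Ω := algebraicClosure K₁ Ω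
  let E : IntermediateField k Ω := E'.restrictScalars k
  have hK₁E : ∀ y ∈ K₁, y ∈ E := fun y hy => E'.algebraMap_mem ⟨y, hy⟩
  have hmemK₁ : ∀ b : ↥B, (b : Ω) ∉ Set.range t → (b : Ω) ∈ K₁ := fun b hb =>
    IntermediateField.subset_adjoin k _ ⟨b, hb, rfl⟩
  refine ⟨E, t, ?_, ?_, ?_, ?_⟩
  · -- algebraically closed
    show IsAlgClosed ↥E'
    exact IsAlgClosure.isAlgClosed K₁
  · -- transcendence basis
    have h1 : AlgebraicIndependent (Algebra.adjoin k (((↑) : ↥B → Ω) '' s))
        fun b : ↥(sᶜ) => ((b : ↥B) : Ω) :=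
      hB.1.adjoin_of_disjoint disjoint_compl_right
    have h2 : AlgebraicIndependent K₁ fun b : ↥(sᶜ) => ((b : ↥B) : Ω) :=
      IntermediateField.algebraicIndependent_adjoin_iff.mpr h1
    have h3 : AlgebraicIndependent E' fun b : ↥(sᶜ) => ((b : ↥B) : Ω) := h2.algebraicClosure
    have h4 : AlgebraicIndependent E' t :=
      h3.comp (fun l => (⟨⟨t l, hGB _⟩, by simp [s]⟩ : ↥(sᶜ))) (by
        intro l l' hll'
        have h : t l = t l' := congrArg (fun b : ↥(sᶜ) => ((b : ↥B) : Ω)) hll'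
        have h' := hG h
        simpa using h')
    have h5 : AlgebraicIndependent E t := h4
    rw [isTranscendenceBasis_iff_algebraicIndependent_isAlgebraic]
    refine ⟨h5, ?_⟩
    refine (hB.isAlgebraic_iff (S := Algebra.adjoin E (Set.range t))).2 fun b => ?_
    have hmem : (b : Ω) ∈ Algebra.adjoin E (Set.range t) := by
      by_cases hb : (b : Ω) ∈ Set.range t
      · exact Algebra.subset_adjoin hb
      · exact Subalgebra.algebraMap_mem _ (⟨(b : Ω), hK₁E _ (hmemK₁ b hb)⟩ : E)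
    exact isAlgebraic_algebraMap (⟨(b : Ω), hmem⟩ : Algebra.adjoin E (Set.range t))
  · intro a ha
    obtain ⟨P, hP, hPa⟩ := hpoly a ha
    have hti : ∀ l, G (i, l) ∈ K₁ := by
      intro l
      refine hmemK₁ ⟨G (i, l), hGB _⟩ ?_
      rintro ⟨l', hl'⟩
      have h := hG hl'
      simp only [Prod.mk.injEq] at h
      exact hij h.1.symm
    have hindi : AlgebraicIndependent k (fun l => G (i, l)) :=
      hB.1.comp (fun l => (⟨G (i, l), hGB _⟩ : ↥B)) (by
        intro l l' h
        have h' := hG (congrArg (fun c : ↥B => (c : Ω)) h)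
        simpa using h')
    have h1 : IsAlgebraic K₁ (σ i a) := isAlgebraic_of_poly _ K₁ hti hindi (σ i a) P hP (hPa i)
    exact (mem_algebraicClosure_iff.mpr h1 : σ i a ∈ E')
  · intro a ha
    obtain ⟨P, hP, hPa⟩ := hpoly a ha
    exact ⟨P, hP, hPa j⟩

end Autos

end Fermat.Agent.S42.H71
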