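/-
Program A, leaf (RIG) + (KUMMER-INV) in Prelude-native shape (`laurentBaseChange`, `coeffMap`,
`arithmeticRingAut`): descent of "p-th power up to finitely many classes" from an algebraically
closed field `Ω` of infinite transcendence degree to an algebraically closed subfield `k`.

No tensor products: elements of `laurentBaseChange L F₀` are written as ratios of finite
`L`-linear combinations of series with rational coefficients.
-/
import Mathlib
import Fermat.Prelude.Def_ModularCurve_ArithmeticGalois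
import Fermat.Agent.S42.H71.Autos

set_option autoImplicit false

namespace Fermat.Agent.S42.H71

open ModularCurve

section LC

variable {R R' : Type*} [CommRing R] [CommRing R']

/-- Finite linear combination of rational Laurent series with coefficients in `R`. -/
noncomputable def lc (g : ℚ →+* R) {ι : Type} [Fintype ι] (c : ι → R)
    (φ : ι → LaurentSeries ℚ) : LaurentSeries R :=
  ∑ i, HahnSeries.C (c i) * coeffMap g (φ i)

theorem coeffMap_C (h : R →+* R') (c : R) :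
    coeffMap h (HahnSeries.C c : LaurentSeries R) = HahnSeries.C (h c) := by
  show coeffMap h (HahnSeries.single 0 c) = HahnSeries.single 0 (h c)
  exact coeffMap_single h 0 c

theorem coeffMap_lc (g : ℚ →+* R) (h : R →+* R') {ι : Type} [Fintype ι] (c : ι → R)
    (φ : ι → LaurentSeries ℚ) :
    coeffMap h (lc g c φ) = lc (h.comp g) (fun i => h (c i)) φ := by
  unfold lc
  rw [map_sum]
  refine Finset.sum_congr rfl fun i _ => ?_
  rw [map_mul, coeffMap_C, coeffMap_coeffMap]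

theorem lc_hom_irrel (g g' : ℚ →+* R) {ι : Type} [Fintype ι] (c : ι → R)
    (φ : ι → LaurentSeries ℚ) : lc g c φ = lc g' c φ := by
  rw [Subsingleton.elim g g']

theorem coeffMap_lc' (g : ℚ →+* R) (g' : ℚ →+* R') (h : R →+* R') {ι : Type} [Fintype ι]
    (c : ι → R) (φ : ι → LaurentSeries ℚ) (c' : ι → R') (hc : ∀ i, h (c i) = c' i) :
    coeffMap h (lc g c φ) = lc g' c' φ := by
  rw [coeffMap_lc, lc_hom_irrel (h.comp g) g']
  congr 1
  exact funext hc

theorem coeffMap_injective (h : R →+* R') (hh : Function.Injective h) :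
    Function.Injective (coeffMap h) := by
  intro x y hxy
  ext m
  apply hh
  have := congrArg (fun z => z.coeff m) hxy
  simpa using this

end LC

section Model

variable {L : Type*} [Field L] [Algebra ℚ L] {F₀ : IntermediateField ℚ (LaurentSeries ℚ)}

theorem lc_mem {ι : Type} [Fintype ι] (c : ι → L) (φ : ι → LaurentSeries ℚ)
    (hφ : ∀ i, φ i ∈ F₀) (g : ℚ →+* L) : lc g c φ ∈ laurentBaseChange L F₀ := by
  rw [lc_hom_irrel g (algebraMap ℚ L)]
  unfold lc
  refine sum_mem fun i _ => mul_mem ?_ (coeffEmb_mem_laurentBaseChange L (hφ i))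
  have h : (HahnSeries.C (c i) : LaurentSeries L) = algebraMap L (LaurentSeries L) (c i) :=
    (algebraMap_laurentSeries_eq_single L (c i)).symm
  rw [h]
  exact (laurentBaseChange L F₀).algebraMap_mem _

theorem exists_lc_of_mem_adjoin {x : LaurentSeries L}
    (hx : x ∈ Algebra.adjoin L (⇑(coeffEmb L) '' (F₀ : Set (LaurentSeries ℚ)))) :
    ∃ (ι : Type) (_ : Fintype ι) (a : ι → L) (φ : ι → LaurentSeries ℚ),
      (∀ i, φ i ∈ F₀) ∧ x = lc (algebraMap ℚ L) a φ := by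
  induction hx using Algebra.adjoin_induction with
  | mem x hx =>
    obtain ⟨φ₀, hφ₀, rfl⟩ := hx
    refine ⟨Unit, inferInstance, fun _ => 1, fun _ => φ₀, fun _ => hφ₀, ?_⟩
    simp [lc, coeffEmb]
  | algebraMap r =>
    refine ⟨Unit, inferInstance, fun _ => r, fun _ => 1, fun _ => F₀.one_mem, ?_⟩
    simp only [lc, Finset.univ_unique, Finset.sum_singleton, map_one, mul_one]
    exact algebraMap_laurentSeries_eq_single L r
  | add x y _ _ hx hy =>
    obtain ⟨ι, _, a, φ, hφ, rfl⟩ := hx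
    obtain ⟨ι', _, a', φ', hφ', rfl⟩ := hy
    refine ⟨ι ⊕ ι', inferInstance, Sum.elim a a', Sum.elim φ φ', ?_, ?_⟩
    · rintro (i | i)
      · exact hφ i
      · exact hφ' i
    · simp [lc, Fintype.sum_sum_type]
  | mul x y _ _ hx hy =>
    obtain ⟨ι, _, a, φ, hφ, rfl⟩ := hx
    obtain ⟨ι', _, a', φ', hφ', rfl⟩ := hy
    refine ⟨ι × ι', inferInstance, fun x => a x.1 * a' x.2, fun x => φ x.1 * φ' x.2, ?_, ?_⟩
    · intro x
      exact F₀.mul_mem (hφ _) (hφ' _)
    · simp only [lc, Fintype.sum_prod_type, Finset.sum_mul_sum, map_mul]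
      refine Finset.sum_congr rfl fun i _ => Finset.sum_congr rfl fun j _ => ?_
      ring

/-- Every element of `laurentBaseChange L F₀` is a ratio of two finite linear combinations. -/
theorem exists_lc_of_mem {x : LaurentSeries L} (hx : x ∈ laurentBaseChange L F₀) :
    ∃ (ι : Type) (_ : Fintype ι) (a : ι → L) (φ : ι → LaurentSeries ℚ)
      (ι' : Type) (_ : Fintype ι') (b : ι' → L) (ψ : ι' → LaurentSeries ℚ),
      (∀ i, φ i ∈ F₀) ∧ (∀ i, ψ i ∈ F₀) ∧
      lc (algebraMap ℚ L) b ψ ≠ 0 ∧ x = lc (algebraMap ℚ L) a φ / lc (algebraMap ℚ L) b ψ := by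
  unfold laurentBaseChange at hx
  rw [IntermediateField.mem_adjoin_iff_div] at hx
  obtain ⟨r, hr, s, hs, rfl⟩ := hx
  obtain ⟨ι, _, a, φ, hφ, rfl⟩ := exists_lc_of_mem_adjoin hr
  obtain ⟨ι', _, b, ψ, hψ, rfl⟩ := exists_lc_of_mem_adjoin hs
  by_cases h0 : lc (algebraMap ℚ L) b ψ = 0
  · refine ⟨Empty, inferInstance, Empty.elim, Empty.elim, Unit, inferInstance, fun _ => 1,
      fun _ => 1, fun i => i.elim, fun _ => F₀.one_mem, ?_, ?_⟩
    · simp [lc]
    · rw [h0, div_zero]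
      simp [lc]
  · exact ⟨ι, _, a, φ, ι', _, b, ψ, hφ, hψ, h0, rfl⟩

end Model

section Transfer

/-- Transfer of a "ratio = ratio * power" identity along an injective hom `I` and back along
another hom `P`. -/
theorem ratio_transfer {S K K' : Type*} [CommRing S] [Field K] [Field K'] (I : S →+* K)
    (hI : Function.Injective I) (P : S →+* K') (p : ℕ) (x₁ y₁ x₂ y₂ x₃ y₃ : S)
    (h1 : P y₁ ≠ 0) (h2 : P y₂ ≠ 0) (h3 : P y₃ ≠ 0)
    (h : I x₁ / I y₁ = I x₂ / I y₂ * (I x₃ / I y₃) ^ p) :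
    P x₁ / P y₁ = P x₂ / P y₂ * (P x₃ / P y₃) ^ p := by
  have hne : ∀ y : S, P y ≠ 0 → I y ≠ 0 := by
    intro y hy h0
    apply hy
    rw [hI (h0.trans (map_zero I).symm), map_zero]
  have e1 : I (x₁ * y₂ * y₃ ^ p) = I (x₂ * y₁ * x₃ ^ p) := by
    have := hne y₁ h1
    have := hne y₂ h2
    have := hne y₃ h3
    simp only [map_mul, map_pow]
    rw [div_pow] at h
    field_simp at h
    linear_combination h
  have e2 := congrArg P (hI e1)
  simp only [map_mul, map_pow] at e2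
  rw [div_pow]
  field_simp
  linear_combination e2

/-- A nontrivial algebra of finite type over an algebraically closed field has a rational
point. -/
theorem exists_algHom_of_finiteType {k R : Type*} [Field k] [IsAlgClosed k] [CommRing R]
    [Nontrivial R] [Algebra k R] [Algebra.FiniteType k R] : Nonempty (R →ₐ[k] k) := by
  obtain ⟨m, hm⟩ := Ideal.exists_maximal R
  let _ := Ideal.Quotient.field m
  have : Algebra.FiniteType k (R ⧸ m) :=
    Algebra.FiniteType.of_surjective (Ideal.Quotient.mkₐ k m) (Ideal.Quotient.mkₐ_surjective k m)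
  have := finite_of_finite_type_of_isJacobsonRing k (R ⧸ m)
  have : Algebra.IsIntegral k (R ⧸ m) := Algebra.IsIntegral.of_finite k _
  have hbij := IsAlgClosed.algebraMap_bijective_of_isIntegral (k := k) (K := R ⧸ m)
  let e : k ≃ₐ[k] (R ⧸ m) := AlgEquiv.ofBijective (Algebra.ofId k _) hbij
  exact ⟨e.symm.toAlgHom.comp (Ideal.Quotient.mkₐ k m)⟩

end Transfer

section Rig

variable (F₀ : IntermediateField ℚ (LaurentSeries ℚ))
variable {k : Type*} {Ω : Type*} [Field k] [Field Ω] [Algebra ℚ k] [Algebra ℚ Ω] [Algebra k Ω]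

/-- `coeffMap (algebraMap k Ω)` maps `laurentBaseChange k F₀` into `laurentBaseChange Ω F₀`. -/
theorem coeffMap_algebraMap_mem {x : LaurentSeries k} (hx : x ∈ laurentBaseChange k F₀) :
    coeffMap (algebraMap k Ω) x ∈ laurentBaseChange Ω F₀ := by
  obtain ⟨ι, _, a, φ, ι', _, b, ψ, hφ, hψ, -, rfl⟩ := exists_lc_of_mem hx
  rw [map_div₀, coeffMap_lc, coeffMap_lc]
  exact div_mem (lc_mem _ _ hφ _) (lc_mem _ _ hψ _)

theorem exists_coeff_ne_zero {R : Type*} [CommRing R] {x : LaurentSeries R} (hx : x ≠ 0) :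
    ∃ m, x.coeff m ≠ 0 := by
  by_contra hcon
  exact hx (HahnSeries.ext (funext fun m => not_not.mp fun h => hcon ⟨m, h⟩))

/-- **(RIG)**, Prelude-native form.  `k ⊆ Ω` algebraically closed, `Ω` of infinite
transcendence degree over `k`.  Let `Pr` be a set of elements of `laurentBaseChange Ω F₀`
stable under the coefficientwise action of `Aut(Ω/k)`, and `c` a map to a finite set such that
two elements of `Pr` with the same `c`-value differ by a `p`-th power.  Then every nonzero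
`f ∈ Pr` is `ι(u₀) * w ^ p` with `u₀` defined over `k`. -/
theorem rig_laurent [IsAlgClosed k] [IsAlgClosed Ω]
    (hinf : ∃ s : ℕ → Ω, AlgebraicIndependent k s)
    (p : ℕ) (Pr : Set (laurentBaseChange Ω F₀))
    (hPr : ∀ σ : Ω ≃ₐ[ℚ] Ω, (∀ a : k, σ (algebraMap k Ω a) = algebraMap k Ω a) →
      ∀ u ∈ Pr, arithmeticRingAut F₀ σ u ∈ Pr)
    {X : Type*} [Finite X] (c : laurentBaseChange Ω F₀ → X)
    (hc : ∀ u ∈ Pr, ∀ u' ∈ Pr, c u = c u' →
      ∃ w : laurentBaseChange Ω F₀, w ≠ 0 ∧ u = u' * w ^ p)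
    (f : laurentBaseChange Ω F₀) (hf : f ∈ Pr) (hf0 : f ≠ 0) :
    ∃ (u₀ : laurentBaseChange k F₀) (w : laurentBaseChange Ω F₀), u₀ ≠ 0 ∧ w ≠ 0 ∧
      (f : LaurentSeries Ω)
        = coeffMap (algebraMap k Ω) (u₀ : LaurentSeries k) * (w : LaurentSeries Ω) ^ p := by
  classical
  obtain ⟨ι₁, _, a, φ, ι₂, _, b, ψ, hφ, hψ, hB0, hfeq⟩ := exists_lc_of_mem f.2
  let S : Finset Ω := Finset.univ.image a ∪ Finset.univ.image b
  have haS : ∀ l, a l ∈ S := fun l =>
    Finset.mem_union_left _ (Finset.mem_image_of_mem _ (Finset.mem_univ l))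
  have hbS : ∀ l, b l ∈ S := fun l =>
    Finset.mem_union_right _ (Finset.mem_image_of_mem _ (Finset.mem_univ l))
  obtain ⟨d, σ, hσ⟩ := exists_autos hinf S (Nat.card X)
  let τ : Fin (Nat.card X + 1) → Ω ≃ₐ[ℚ] Ω := fun i => (σ i).toRingEquiv.toRatAlgEquiv
  have hτPr : ∀ i, arithmeticRingAut F₀ (τ i) f ∈ Pr := fun i =>
    hPr (τ i) (fun a => (σ i).commutes a) f hf
  -- pigeonhole
  obtain ⟨i, j, hij, hcij⟩ : ∃ i j, i ≠ j ∧
      c (arithmeticRingAut F₀ (τ i) f) = c (arithmeticRingAut F₀ (τ j) f) := by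
    have := Fintype.ofFinite X
    apply Fintype.exists_ne_map_eq_of_card_lt
    rw [Fintype.card_fin, ← Nat.card_eq_fintype_card]
    exact Nat.lt_succ_self _
  obtain ⟨w, hw0, hw⟩ := hc _ (hτPr i) _ (hτPr j) hcij
  obtain ⟨E, t, hEcl, ht, hSi, hSj⟩ := hσ i j hij
  obtain ⟨ι₃, _, cC, χ, ι₄, _, cD, ω, hχ, hω, hD0, hweq⟩ := exists_lc_of_mem w.2
  -- the identity in `Ω((q))`
  have hτinj : ∀ i, Function.Injective (coeffMap ((τ i : Ω ≃ₐ[ℚ] Ω) : Ω →+* Ω)) := fun i =>
    coeffMap_injective _ (τ i).injective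
  have eτa : ∀ i, coeffMap ((τ i : Ω ≃ₐ[ℚ] Ω) : Ω →+* Ω) (lc (algebraMap ℚ Ω) a φ)
      = lc (algebraMap ℚ Ω) (fun l => σ i (a l)) φ := fun i =>
    coeffMap_lc' _ _ _ _ _ _ (fun _ => rfl)
  have eτb : ∀ i, coeffMap ((τ i : Ω ≃ₐ[ℚ] Ω) : Ω →+* Ω) (lc (algebraMap ℚ Ω) b ψ)
      = lc (algebraMap ℚ Ω) (fun l => σ i (b l)) ψ := fun i =>
    coeffMap_lc' _ _ _ _ _ _ (fun _ => rfl)
  have hτf : ∀ i, coeffMap ((τ i : Ω ≃ₐ[ℚ] Ω) : Ω →+* Ω) (f : LaurentSeries Ω)
      = lc (algebraMap ℚ Ω) (fun l => σ i (a l)) φ / lc (algebraMap ℚ Ω) (fun l => σ i (b l)) ψ := by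
    intro i
    rw [hfeq, map_div₀, eτa, eτb]
  have hBne : ∀ i, lc (algebraMap ℚ Ω) (fun l => σ i (b l)) ψ ≠ 0 := by
    intro i h0
    rw [← eτb i] at h0
    exact hB0 (hτinj i (h0.trans (map_zero _).symm))
  have hw' : lc (algebraMap ℚ Ω) (fun l => σ i (a l)) φ / lc (algebraMap ℚ Ω) (fun l => σ i (b l)) ψ
      = lc (algebraMap ℚ Ω) (fun l => σ j (a l)) φ / lc (algebraMap ℚ Ω) (fun l => σ j (b l)) ψ
        * (lc (algebraMap ℚ Ω) cC χ / lc (algebraMap ℚ Ω) cD ω) ^ p := by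
    have h1 := congrArg (fun x : laurentBaseChange Ω F₀ => (x : LaurentSeries Ω)) hw
    simp only [MulMemClass.coe_mul, SubmonoidClass.coe_pow, coe_arithmeticRingAut_apply] at h1
    rw [hτf i, hτf j, hweq] at h1
    exact h1
  -- coefficients that must survive
  obtain ⟨m₁, hm₁⟩ := exists_coeff_ne_zero (hBne j)
  obtain ⟨m₂, hm₂⟩ := exists_coeff_ne_zero hD0
  let Z : Finset Ω := Finset.univ.image cC ∪ Finset.univ.image cD ∪
    {(lc (algebraMap ℚ Ω) (fun l => σ j (b l)) ψ).coeff m₁, (lc (algebraMap ℚ Ω) cD ω).coeff m₂}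
  let Y : Finset Ω := S.image (σ j)
  have hY : ∀ y ∈ Y, ∃ P : Polynomial (MvPolynomial (Fin d) k), P ≠ 0 ∧
      Polynomial.eval₂ ((MvPolynomial.aeval t : MvPolynomial (Fin d) k →ₐ[k] Ω) :
        MvPolynomial (Fin d) k →+* Ω) y P = 0 := by
    intro y hy
    obtain ⟨x, hx, rfl⟩ := Finset.mem_image.mp hy
    exact hSj x hx
  obtain ⟨C, _, incl, π, hincl, ⟨s, hs1, hs2⟩, hZ, hYC⟩ :=
    exists_specialization (k := k) (E := E) t ht Y hY Z
  let g : ℚ →+* C := s.comp (algebraMap ℚ E)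
  let ρ : C →+* Ω := (algebraMap E Ω).comp π
  -- lifts of the coefficient tuples
  let ai : ι₁ → C := fun l => s ⟨σ i (a l), hSi _ (haS l)⟩
  let bi : ι₂ → C := fun l => s ⟨σ i (b l), hSi _ (hbS l)⟩
  have hYa : ∀ l, ∃ x : C, incl x = σ j (a l) ∧ π x ∈ Set.range (algebraMap k E) := fun l =>
    hYC _ (Finset.mem_image_of_mem _ (haS l))
  have hYb : ∀ l, ∃ x : C, incl x = σ j (b l) ∧ π x ∈ Set.range (algebraMap k E) := fun l =>
    hYC _ (Finset.mem_image_of_mem _ (hbS l))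
  choose aj haj1 haj2 using hYa
  choose bj hbj1 hbj2 using hYb
  choose α hα using haj2
  choose β hβ using hbj2
  have hZc : ∀ l, ∃ x : C, incl x = cC l ∧ (cC l ≠ 0 → π x ≠ 0) := fun l =>
    hZ _ (Finset.mem_union_left _ (Finset.mem_union_left _
      (Finset.mem_image_of_mem _ (Finset.mem_univ l))))
  have hZd : ∀ l, ∃ x : C, incl x = cD l ∧ (cD l ≠ 0 → π x ≠ 0) := fun l =>
    hZ _ (Finset.mem_union_left _ (Finset.mem_union_right _
      (Finset.mem_image_of_mem _ (Finset.mem_univ l))))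
  choose cc hcc1 _ using hZc
  choose cd hcd1 _ using hZd
  -- images under `incl`
  have iAi : coeffMap incl (lc g ai φ) = lc (algebraMap ℚ Ω) (fun l => σ i (a l)) φ :=
    coeffMap_lc' _ _ _ _ _ _ (fun l => hs1 _)
  have iBi : coeffMap incl (lc g bi ψ) = lc (algebraMap ℚ Ω) (fun l => σ i (b l)) ψ :=
    coeffMap_lc' _ _ _ _ _ _ (fun l => hs1 _)
  have iAj : coeffMap incl (lc g aj φ) = lc (algebraMap ℚ Ω) (fun l => σ j (a l)) φ :=
    coeffMap_lc' _ _ _ _ _ _ haj1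
  have iBj : coeffMap incl (lc g bj ψ) = lc (algebraMap ℚ Ω) (fun l => σ j (b l)) ψ :=
    coeffMap_lc' _ _ _ _ _ _ hbj1
  have iC : coeffMap incl (lc g cc χ) = lc (algebraMap ℚ Ω) cC χ :=
    coeffMap_lc' _ _ _ _ _ _ hcc1
  have iD : coeffMap incl (lc g cd ω) = lc (algebraMap ℚ Ω) cD ω :=
    coeffMap_lc' _ _ _ _ _ _ hcd1
  -- images under `ρ`
  have hρs : ∀ e : E, ρ (s e) = algebraMap E Ω e := fun e => by
    show algebraMap E Ω (π (s e)) = algebraMap E Ω e
    rw [hs2]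
  have pAi : coeffMap ρ (lc g ai φ) = lc (algebraMap ℚ Ω) (fun l => σ i (a l)) φ :=
    coeffMap_lc' _ _ _ _ _ _ (fun l => hρs _)
  have pBi : coeffMap ρ (lc g bi ψ) = lc (algebraMap ℚ Ω) (fun l => σ i (b l)) ψ :=
    coeffMap_lc' _ _ _ _ _ _ (fun l => hρs _)
  have pAj : coeffMap ρ (lc g aj φ) = coeffMap (algebraMap k Ω) (lc (algebraMap ℚ k) α φ) := by
    rw [coeffMap_lc' g (algebraMap ℚ Ω) ρ aj φ (fun l => algebraMap k Ω (α l)),
      coeffMap_lc' (algebraMap ℚ k) (algebraMap ℚ Ω) (algebraMap k Ω) α φ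
        (fun l => algebraMap k Ω (α l)) (fun _ => rfl)]
    intro l
    show algebraMap E Ω (π (aj l)) = _
    rw [← hα l, ← IsScalarTower.algebraMap_apply]
  have pBj : coeffMap ρ (lc g bj ψ) = coeffMap (algebraMap k Ω) (lc (algebraMap ℚ k) β ψ) := by
    rw [coeffMap_lc' g (algebraMap ℚ Ω) ρ bj ψ (fun l => algebraMap k Ω (β l)),
      coeffMap_lc' (algebraMap ℚ k) (algebraMap ℚ Ω) (algebraMap k Ω) β ψ
        (fun l => algebraMap k Ω (β l)) (fun _ => rfl)]
    intro l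
    show algebraMap E Ω (π (bj l)) = _
    rw [← hβ l, ← IsScalarTower.algebraMap_apply]
  -- nonvanishing after specialisation
  have hnz : ∀ (x : LaurentSeries C) (m : ℤ), (coeffMap incl x).coeff m ∈ Z →
      (coeffMap incl x).coeff m ≠ 0 → coeffMap ρ x ≠ 0 := by
    intro x m hmem hne h0
    obtain ⟨y, hy1, hy2⟩ := hZ _ hmem
    have hy3 : y = x.coeff m := hincl (hy1.trans (coeffMap_coeff incl x m))
    have h1 : (coeffMap ρ x).coeff m = algebraMap E Ω (π (x.coeff m)) := rfl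
    rw [h0] at h1
    have h2 : π (x.coeff m) = 0 :=
      (algebraMap E Ω).injective (h1.symm.trans (map_zero _).symm)
    exact hy2 hne (hy3 ▸ h2)
  have nBj : coeffMap ρ (lc g bj ψ) ≠ 0 := by
    refine hnz _ m₁ ?_ ?_
    · rw [iBj]
      exact Finset.mem_union_right _ (Finset.mem_insert_self _ _)
    · rw [iBj]
      exact hm₁
  have nD : coeffMap ρ (lc g cd ω) ≠ 0 := by
    refine hnz _ m₂ ?_ ?_
    · rw [iD]
      exact Finset.mem_union_right _ (Finset.mem_insert_of_mem (Finset.mem_singleton_self _))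
    · rw [iD]
      exact hm₂
  have nBi : coeffMap ρ (lc g bi ψ) ≠ 0 := by
    rw [pBi]
    exact hBne i
  -- transfer
  have key := ratio_transfer (coeffMap incl) (coeffMap_injective incl hincl) (coeffMap ρ) p
    (lc g ai φ) (lc g bi ψ) (lc g aj φ) (lc g bj ψ) (lc g cc χ) (lc g cd ω) nBi nBj nD
    (by rw [iAi, iBi, iAj, iBj, iC, iD]; exact hw')
  rw [pAi, pBi, pAj, pBj, ← hτf i, ← map_div₀] at key
  -- the pieces
  have hu₀mem : lc (algebraMap ℚ k) α φ / lc (algebraMap ℚ k) β ψ ∈ laurentBaseChange k F₀ :=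
    div_mem (lc_mem _ _ hφ _) (lc_mem _ _ hψ _)
  have hw₁mem : coeffMap ρ (lc g cc χ) / coeffMap ρ (lc g cd ω) ∈ laurentBaseChange Ω F₀ := by
    rw [coeffMap_lc, coeffMap_lc]
    exact div_mem (lc_mem _ _ hχ _) (lc_mem _ _ hω _)
  have hw₂mem : coeffMap (((τ i).symm : Ω ≃ₐ[ℚ] Ω) : Ω →+* Ω)
      (coeffMap ρ (lc g cc χ) / coeffMap ρ (lc g cd ω)) ∈ laurentBaseChange Ω F₀ :=
    coeffMap_mem_laurentBaseChange (τ i).symm hw₁mem
  have hfin : (f : LaurentSeries Ω)
      = coeffMap (algebraMap k Ω) (lc (algebraMap ℚ k) α φ / lc (algebraMap ℚ k) β ψ)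
        * (coeffMap (((τ i).symm : Ω ≃ₐ[ℚ] Ω) : Ω →+* Ω)
          (coeffMap ρ (lc g cc χ) / coeffMap ρ (lc g cd ω))) ^ p := by
    have h1 := congrArg (coeffMap (((τ i).symm : Ω ≃ₐ[ℚ] Ω) : Ω →+* Ω)) key
    rw [coeffMap_coeffMap, map_mul, map_pow, coeffMap_coeffMap] at h1
    have e1 : ((((τ i).symm : Ω ≃ₐ[ℚ] Ω) : Ω →+* Ω)).comp ((τ i : Ω ≃ₐ[ℚ] Ω) : Ω →+* Ω)
        = RingHom.id Ω := RingHom.ext fun x => (τ i).symm_apply_apply x
    have e2 : ((((τ i).symm : Ω ≃ₐ[ℚ] Ω) : Ω →+* Ω)).comp (algebraMap k Ω) = algebraMap k Ω := by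
      refine RingHom.ext fun x => ?_
      show (τ i).symm (algebraMap k Ω x) = algebraMap k Ω x
      rw [AlgEquiv.symm_apply_eq]
      exact ((σ i).commutes x).symm
    rw [e1, coeffMap_id, e2] at h1
    exact h1
  have hf0' : (f : LaurentSeries Ω) ≠ 0 := fun h => hf0 (Subtype.ext h)
  have hu₀ne : lc (algebraMap ℚ k) α φ / lc (algebraMap ℚ k) β ψ ≠ 0 := by
    intro h0
    rw [h0, map_zero, zero_mul] at hfin
    exact hf0' hfin
  by_cases hw₂ : coeffMap (((τ i).symm : Ω ≃ₐ[ℚ] Ω) : Ω →+* Ω)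
      (coeffMap ρ (lc g cc χ) / coeffMap ρ (lc g cd ω)) = 0
  · have hp0 : p = 0 := by
      by_contra hp
      rw [hw₂, zero_pow hp, mul_zero] at hfin
      exact hf0' hfin
    refine ⟨⟨_, hu₀mem⟩, 1, fun h => hu₀ne (congrArg Subtype.val h), one_ne_zero, ?_⟩
    rw [hfin, hp0, pow_zero, pow_zero]
  · exact ⟨⟨_, hu₀mem⟩, ⟨_, hw₂mem⟩, fun h => hu₀ne (congrArg Subtype.val h),
      fun h => hw₂ (congrArg Subtype.val h), hfin⟩

/-- **(KUMMER-INV)**, Prelude-native form: if an element `u` defined over the algebraically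
closed field `k` becomes a constant times a `p`-th power over `Ω`, it already is a constant
times a `p`-th power over `k`. -/
theorem kummer_inv_laurent [IsAlgClosed k] (p : ℕ) (u : laurentBaseChange k F₀) (a : Ω)
    (w : laurentBaseChange Ω F₀)
    (h : coeffMap (algebraMap k Ω) (u : LaurentSeries k)
      = algebraMap Ω (LaurentSeries Ω) a * (w : LaurentSeries Ω) ^ p) :
    ∃ (b : k) (v : laurentBaseChange k F₀),
      (u : LaurentSeries k) = algebraMap k (LaurentSeries k) b * (v : LaurentSeries k) ^ p := by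
  classical
  obtain ⟨ι₁, _, α, φ, ι₂, _, β, ψ, hφ, hψ, hB0, hueq⟩ := exists_lc_of_mem u.2
  obtain ⟨ι₃, _, cC, χ, ι₄, _, cD, ω, hχ, hω, hD0, hweq⟩ := exists_lc_of_mem w.2
  obtain ⟨m₂, hm₂⟩ := exists_coeff_ne_zero hD0
  let Sfin : Finset Ω := insert a (insert ((lc (algebraMap ℚ Ω) cD ω).coeff m₂)⁻¹
    (Finset.univ.image cC ∪ Finset.univ.image cD))
  let R : Subalgebra k Ω := Algebra.adjoin k (Sfin : Set Ω)
  have haR : a ∈ R := Algebra.subset_adjoin (Finset.mem_insert_self _ _)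
  have hzR : ((lc (algebraMap ℚ Ω) cD ω).coeff m₂)⁻¹ ∈ R :=
    Algebra.subset_adjoin (Finset.mem_insert_of_mem (Finset.mem_insert_self _ _))
  have hcR : ∀ l, cC l ∈ R := fun l => Algebra.subset_adjoin
    (Finset.mem_insert_of_mem (Finset.mem_insert_of_mem (Finset.mem_union_left _
      (Finset.mem_image_of_mem _ (Finset.mem_univ l)))))
  have hdR : ∀ l, cD l ∈ R := fun l => Algebra.subset_adjoin
    (Finset.mem_insert_of_mem (Finset.mem_insert_of_mem (Finset.mem_union_right _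
      (Finset.mem_image_of_mem _ (Finset.mem_univ l)))))
  have : Algebra.FiniteType k R := (Subalgebra.fg_iff_finiteType _).mp (Subalgebra.fg_adjoin_finset _)
  obtain ⟨π₀⟩ := exists_algHom_of_finiteType (k := k) (R := R)
  let g : ℚ →+* R := (algebraMap k R).comp (algebraMap ℚ k)
  let incl : R →+* Ω := R.val
  have hincl : Function.Injective incl := Subtype.val_injective
  let ρ : R →+* k := π₀
  let cc : ι₃ → R := fun l => ⟨cC l, hcR l⟩
  let cd : ι₄ → R := fun l => ⟨cD l, hdR l⟩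
  have iA : coeffMap incl (lc g (fun l => algebraMap k R (α l)) φ)
      = coeffMap (algebraMap k Ω) (lc (algebraMap ℚ k) α φ) := by
    rw [coeffMap_lc' g (algebraMap ℚ Ω) incl _ φ (fun l => algebraMap k Ω (α l)) (fun _ => rfl),
      coeffMap_lc' (algebraMap ℚ k) (algebraMap ℚ Ω) (algebraMap k Ω) α φ
        (fun l => algebraMap k Ω (α l)) (fun _ => rfl)]
  have iB : coeffMap incl (lc g (fun l => algebraMap k R (β l)) ψ)
      = coeffMap (algebraMap k Ω) (lc (algebraMap ℚ k) β ψ) := by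
    rw [coeffMap_lc' g (algebraMap ℚ Ω) incl _ ψ (fun l => algebraMap k Ω (β l)) (fun _ => rfl),
      coeffMap_lc' (algebraMap ℚ k) (algebraMap ℚ Ω) (algebraMap k Ω) β ψ
        (fun l => algebraMap k Ω (β l)) (fun _ => rfl)]
  have iC : coeffMap incl (lc g cc χ) = lc (algebraMap ℚ Ω) cC χ :=
    coeffMap_lc' _ _ _ _ _ _ (fun _ => rfl)
  have iD : coeffMap incl (lc g cd ω) = lc (algebraMap ℚ Ω) cD ω :=
    coeffMap_lc' _ _ _ _ _ _ (fun _ => rfl)
  have ia : coeffMap incl (HahnSeries.C (⟨a, haR⟩ : R) : LaurentSeries R)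
      = algebraMap Ω (LaurentSeries Ω) a := by
    rw [coeffMap_C, algebraMap_laurentSeries_eq_single]
    rfl
  have pA : coeffMap ρ (lc g (fun l => algebraMap k R (α l)) φ) = lc (algebraMap ℚ k) α φ :=
    coeffMap_lc' _ _ _ _ _ _ (fun l => π₀.commutes (α l))
  have pB : coeffMap ρ (lc g (fun l => algebraMap k R (β l)) ψ) = lc (algebraMap ℚ k) β ψ :=
    coeffMap_lc' _ _ _ _ _ _ (fun l => π₀.commutes (β l))
  have pa : coeffMap ρ (HahnSeries.C (⟨a, haR⟩ : R) : LaurentSeries R)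
      = algebraMap k (LaurentSeries k) (π₀ ⟨a, haR⟩) := by
    rw [coeffMap_C, algebraMap_laurentSeries_eq_single]
    rfl
  have nB : coeffMap ρ (lc g (fun l => algebraMap k R (β l)) ψ) ≠ 0 := by
    rw [pB]
    exact hB0
  have n1 : coeffMap ρ (1 : LaurentSeries R) ≠ 0 := by
    rw [map_one]
    exact one_ne_zero
  have nD : coeffMap ρ (lc g cd ω) ≠ 0 := by
    intro h0
    have h1 : (coeffMap ρ (lc g cd ω)).coeff m₂ = π₀ ((lc g cd ω).coeff m₂) := rfl
    rw [h0] at h1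
    have h2 : ((lc g cd ω).coeff m₂ : Ω) = (lc (algebraMap ℚ Ω) cD ω).coeff m₂ := by
      rw [← iD]
      rfl
    have h3 : (lc g cd ω).coeff m₂ * ⟨((lc (algebraMap ℚ Ω) cD ω).coeff m₂)⁻¹, hzR⟩ = 1 := by
      apply Subtype.ext
      show ((lc g cd ω).coeff m₂ : Ω) * ((lc (algebraMap ℚ Ω) cD ω).coeff m₂)⁻¹ = 1
      rw [h2]
      exact mul_inv_cancel₀ hm₂
    have h4 := congrArg π₀ h3
    rw [map_mul, ← h1, map_one] at h4
    simp at h4
  have key := ratio_transfer (coeffMap incl) (coeffMap_injective incl hincl) (coeffMap ρ) p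
    (lc g (fun l => algebraMap k R (α l)) φ) (lc g (fun l => algebraMap k R (β l)) ψ)
    (HahnSeries.C (⟨a, haR⟩ : R)) 1 (lc g cc χ) (lc g cd ω) nB n1 nD
    (by rw [iA, iB, ia, iC, iD, map_one, div_one, ← map_div₀, ← hueq, ← hweq]; exact h)
  rw [pA, pB, pa, map_one, div_one, ← hueq] at key
  have hvmem : coeffMap ρ (lc g cc χ) / coeffMap ρ (lc g cd ω) ∈ laurentBaseChange k F₀ := by
    rw [coeffMap_lc, coeffMap_lc]
    exact div_mem (lc_mem _ _ hχ _) (lc_mem _ _ hω _)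
  exact ⟨π₀ ⟨a, haR⟩, ⟨_, hvmem⟩, key⟩

/-- (KUMMER-INV), power form: for `p ≠ 0` the constant is itself a `p`-th power. -/
theorem kummer_inv_laurent_pow [IsAlgClosed k] (p : ℕ) (hp : p ≠ 0) (u : laurentBaseChange k F₀)
    (a : Ω) (w : laurentBaseChange Ω F₀)
    (h : coeffMap (algebraMap k Ω) (u : LaurentSeries k)
      = algebraMap Ω (LaurentSeries Ω) a * (w : LaurentSeries Ω) ^ p) :
    ∃ v : laurentBaseChange k F₀, u = v ^ p := by
  obtain ⟨b, v, hv⟩ := kummer_inv_laurent F₀ p u a w h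
  obtain ⟨b', hb'⟩ := IsAlgClosed.exists_pow_nat_eq b (Nat.pos_of_ne_zero hp)
  refine ⟨algebraMap k (laurentBaseChange k F₀) b' * v, Subtype.ext ?_⟩
  rw [hv, ← hb', mul_pow, map_pow]
  rfl

end Rig

section RigHom

variable (F₀ : IntermediateField ℚ (LaurentSeries ℚ))
variable {k : Type*} {Ω : Type*} [Field k] [Field Ω] [Algebra ℚ k] [Algebra ℚ Ω]

/-- `coeffMap ι` maps `laurentBaseChange k F₀` into `laurentBaseChange Ω F₀`, for any ring
homomorphism `ι : k →+* Ω`. -/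
theorem coeffMap_ringHom_mem (ι : k →+* Ω) {x : LaurentSeries k}
    (hx : x ∈ laurentBaseChange k F₀) : coeffMap ι x ∈ laurentBaseChange Ω F₀ :=
  letI := ι.toAlgebra
  coeffMap_algebraMap_mem F₀ hx

/-- (RIG) for an explicit embedding `ι : k →+* Ω` (no `Algebra k Ω` instance needed). -/
theorem rig_laurent_of_ringHom (ι : k →+* Ω) [IsAlgClosed k] [IsAlgClosed Ω]
    (hinf : letI := ι.toAlgebra; ∃ s : ℕ → Ω, AlgebraicIndependent k s)
    (p : ℕ) (Pr : Set (laurentBaseChange Ω F₀))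
    (hPr : ∀ σ : Ω ≃ₐ[ℚ] Ω, (∀ a : k, σ (ι a) = ι a) →
      ∀ u ∈ Pr, arithmeticRingAut F₀ σ u ∈ Pr)
    {X : Type*} [Finite X] (c : laurentBaseChange Ω F₀ → X)
    (hc : ∀ u ∈ Pr, ∀ u' ∈ Pr, c u = c u' →
      ∃ w : laurentBaseChange Ω F₀, w ≠ 0 ∧ u = u' * w ^ p)
    (f : laurentBaseChange Ω F₀) (hf : f ∈ Pr) (hf0 : f ≠ 0) :
    ∃ (u₀ : laurentBaseChange k F₀) (w : laurentBaseChange Ω F₀), u₀ ≠ 0 ∧ w ≠ 0 ∧
      (f : LaurentSeries Ω) = coeffMap ι (u₀ : LaurentSeries k) * (w : LaurentSeries Ω) ^ p :=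
  letI := ι.toAlgebra
  rig_laurent F₀ hinf p Pr hPr c hc f hf hf0

/-- (KUMMER-INV) for an explicit embedding `ι : k →+* Ω`. -/
theorem kummer_inv_laurent_of_ringHom (ι : k →+* Ω) [IsAlgClosed k] (p : ℕ)
    (u : laurentBaseChange k F₀) (a : Ω) (w : laurentBaseChange Ω F₀)
    (h : coeffMap ι (u : LaurentSeries k)
      = algebraMap Ω (LaurentSeries Ω) a * (w : LaurentSeries Ω) ^ p) :
    ∃ (b : k) (v : laurentBaseChange k F₀),
      (u : LaurentSeries k) = algebraMap k (LaurentSeries k) b * (v : LaurentSeries k) ^ p :=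
  letI := ι.toAlgebra
  kummer_inv_laurent F₀ p u a w h

/-- (KUMMER-INV), power form, for an explicit embedding `ι : k →+* Ω`. -/
theorem kummer_inv_laurent_pow_of_ringHom (ι : k →+* Ω) [IsAlgClosed k] (p : ℕ) (hp : p ≠ 0)
    (u : laurentBaseChange k F₀) (a : Ω) (w : laurentBaseChange Ω F₀)
    (h : coeffMap ι (u : LaurentSeries k)
      = algebraMap Ω (LaurentSeries Ω) a * (w : LaurentSeries Ω) ^ p) :
    ∃ v : laurentBaseChange k F₀, u = v ^ p :=
  letI := ι.toAlgebra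
  kummer_inv_laurent_pow F₀ p hp u a w h

end RigHom

end Fermat.Agent.S42.H71
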