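/-
Program A, leaf (RIG) + (KUMMER-INV): the instance `k = ℚ̄ = AlgebraicClosure ℚ`, `Ω = ℂ`,
for an arbitrary embedding `φ : ℚ̄ →+* ℂ` (e.g. the landed `S24.iota`).
-/
import Mathlib
import Fermat.Agent.S42.H71.Rig
import Fermat.Agent.S42.H20.Trdeg

set_option autoImplicit false

namespace Fermat.Agent.S42.H71

open ModularCurve

/-- **(RIG) over `ℂ / ℚ̄`.**  Let `Pr` be a set of elements of `laurentBaseChange ℂ F₀` stable
under the coefficientwise action of the automorphisms of `ℂ` fixing `φ(ℚ̄)`, and `c` a map to a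
finite set such that two elements of `Pr` with the same `c`-value differ by a `p`-th power.
Then every nonzero `f ∈ Pr` is `φ(u₀) * w ^ p` with `u₀ ∈ laurentBaseChange ℚ̄ F₀`. -/
theorem rig_complex (F₀ : IntermediateField ℚ (LaurentSeries ℚ)) (φ : AlgebraicClosure ℚ →+* ℂ)
    (p : ℕ) (Pr : Set (laurentBaseChange ℂ F₀))
    (hPr : ∀ σ : ℂ ≃ₐ[ℚ] ℂ, (∀ a : AlgebraicClosure ℚ, σ (φ a) = φ a) →
      ∀ u ∈ Pr, arithmeticRingAut F₀ σ u ∈ Pr)
    {X : Type*} [Finite X] (c : laurentBaseChange ℂ F₀ → X)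
    (hc : ∀ u ∈ Pr, ∀ u' ∈ Pr, c u = c u' →
      ∃ w : laurentBaseChange ℂ F₀, w ≠ 0 ∧ u = u' * w ^ p)
    (f : laurentBaseChange ℂ F₀) (hf : f ∈ Pr) (hf0 : f ≠ 0) :
    ∃ (u₀ : laurentBaseChange (AlgebraicClosure ℚ) F₀) (w : laurentBaseChange ℂ F₀),
      u₀ ≠ 0 ∧ w ≠ 0 ∧
      (f : LaurentSeries ℂ)
        = coeffMap φ (u₀ : LaurentSeries (AlgebraicClosure ℚ)) * (w : LaurentSeries ℂ) ^ p :=
  rig_laurent_of_ringHom F₀ φ (Fermat.Agent.S42.H20.exists_algebraicIndependent_nat_of_ringHom φ)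
    p Pr hPr c hc f hf hf0

/-- **(KUMMER-INV) over `ℂ / ℚ̄`.** -/
theorem kummer_inv_complex (F₀ : IntermediateField ℚ (LaurentSeries ℚ))
    (φ : AlgebraicClosure ℚ →+* ℂ) (p : ℕ) (u : laurentBaseChange (AlgebraicClosure ℚ) F₀)
    (a : ℂ) (w : laurentBaseChange ℂ F₀)
    (h : coeffMap φ (u : LaurentSeries (AlgebraicClosure ℚ))
      = algebraMap ℂ (LaurentSeries ℂ) a * (w : LaurentSeries ℂ) ^ p) :
    ∃ (b : AlgebraicClosure ℚ) (v : laurentBaseChange (AlgebraicClosure ℚ) F₀),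
      (u : LaurentSeries (AlgebraicClosure ℚ))
        = algebraMap (AlgebraicClosure ℚ) (LaurentSeries (AlgebraicClosure ℚ)) b
          * (v : LaurentSeries (AlgebraicClosure ℚ)) ^ p :=
  kummer_inv_laurent_of_ringHom F₀ φ p u a w h

/-- (KUMMER-INV) over `ℂ / ℚ̄`, power form. -/
theorem kummer_inv_complex_pow (F₀ : IntermediateField ℚ (LaurentSeries ℚ))
    (φ : AlgebraicClosure ℚ →+* ℂ) (p : ℕ) (hp : p ≠ 0)
    (u : laurentBaseChange (AlgebraicClosure ℚ) F₀) (a : ℂ) (w : laurentBaseChange ℂ F₀)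
    (h : coeffMap φ (u : LaurentSeries (AlgebraicClosure ℚ))
      = algebraMap ℂ (LaurentSeries ℂ) a * (w : LaurentSeries ℂ) ^ p) :
    ∃ v : laurentBaseChange (AlgebraicClosure ℚ) F₀, u = v ^ p :=
  kummer_inv_laurent_pow_of_ringHom F₀ φ p hp u a w h

/-- `coeffMap φ` of an element of `laurentBaseChange ℚ̄ F₀` lies in `laurentBaseChange ℂ F₀`. -/
theorem rig_complex_mem (F₀ : IntermediateField ℚ (LaurentSeries ℚ))
    (φ : AlgebraicClosure ℚ →+* ℂ) (u₀ : laurentBaseChange (AlgebraicClosure ℚ) F₀) :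
    coeffMap φ (u₀ : LaurentSeries (AlgebraicClosure ℚ)) ∈ laurentBaseChange ℂ F₀ :=
  coeffMap_ringHom_mem F₀ φ u₀.2

end Fermat.Agent.S42.H71
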